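import Mathlib
import Fermat.Agent.S28.H589.UnitAnalytic

/-!
# S28 / [A-W], analytic part 2 (helper589): the unit is good; its `q`-expansions

Same route as `[A-Φ]` (`ModPoly.lean`): helper648's conjugate product for the good function
`u(τ) = p¹² Δ(pτ)/Δ(τ)` gives `W ∈ ℂ[Y][X]`, monic of degree `p + 1`, with
`W(u(τ), j(τ)) = 0` and `W(Δ(τ)/Δ(pτ), j(pτ)) = 0`; `descent` shows `W ∈ ℤ[Y][X]`.
-/

set_option autoImplicit false

noncomputable section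

open UpperHalfPlane ModularCurve CongruenceSubgroup Function
open scoped MatrixGroups Manifold Real Modular

namespace Fermat.Agent.S28.H589

open Fermat.Agent.S28.H565 (HasTExp deltaSeriesC deltaInvSeriesC)
open Fermat.Agent.S24.H648 (goodRing ExpGrowth)

local notation "Δ" => ModularForm.discriminant

/-! ### Analytic side -/

/-- For `γ ∈ Γ₀(p)` there is `γ' ∈ SL₂(ℤ)` with `γ' (pτ) = p (γ τ)` and the same automorphy
factor. -/
theorem exists_smul_scaleH (p : ℕ) (hp : 0 < p) (γ : SL(2, ℤ)) (hγ : γ ∈ Gamma0 p) :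
    ∃ γ' : SL(2, ℤ), ∀ τ : ℍ, γ' • scaleH p hp τ = scaleH p hp (γ • τ) ∧
      ((γ' 1 0 : ℂ) * (scaleH p hp τ : ℂ) + (γ' 1 1 : ℂ)) = ((γ 1 0 : ℂ) * τ + (γ 1 1 : ℂ)) := by
  have hN : (p : ℤ) ∣ γ 1 0 := by
    rw [Gamma0_mem] at hγ
    exact (ZMod.intCast_zmod_eq_zero_iff_dvd _ _).mp hγ
  obtain ⟨k, hk⟩ := hN
  have hdet : γ 0 0 * γ 1 1 - γ 0 1 * γ 1 0 = 1 := by
    have := γ.det_coe
    rw [Matrix.det_fin_two] at this
    exact this
  have hdet' : (!![γ 0 0, γ 0 1 * p; k, γ 1 1] : Matrix (Fin 2) (Fin 2) ℤ).det = 1 := by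
    rw [Matrix.det_fin_two_of]
    rw [hk] at hdet
    linear_combination hdet
  set γ' : SL(2, ℤ) := ⟨!![γ 0 0, γ 0 1 * p; k, γ 1 1], hdet'⟩ with hγ'def
  have e00 : γ' 0 0 = γ 0 0 := rfl
  have e01 : γ' 0 1 = γ 0 1 * p := rfl
  have e10 : γ' 1 0 = k := rfl
  have e11 : γ' 1 1 = γ 1 1 := rfl
  have hk' : ((γ 1 0 : ℤ) : ℂ) = p * k := by rw [hk]; push_cast; ring
  refine ⟨γ', fun τ => ⟨?_, ?_⟩⟩
  · apply UpperHalfPlane.ext
    rw [scaleH_coe, coe_specialLinearGroup_apply γ τ, coe_specialLinearGroup_apply γ' _,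
      scaleH_coe, e00, e01, e10, e11]
    simp only [algebraMap_int_eq, Int.coe_castRingHom, Complex.ofReal_intCast]
    have hden : ((γ 1 0 : ℤ) : ℂ) * τ + ((γ 1 1 : ℤ) : ℂ) ≠ 0 := by
      have := denom_ne_zero (γ : GL (Fin 2) ℝ) τ
      simpa [denom] using this
    have hd0 : (p : ℂ) ≠ 0 := by exact_mod_cast hp.ne'
    have hden' : (k : ℂ) * (p * τ) + ((γ 1 1 : ℤ) : ℂ) ≠ 0 := by
      have : (k : ℂ) * (p * τ) + ((γ 1 1 : ℤ) : ℂ)
          = ((γ 1 0 : ℤ) : ℂ) * τ + ((γ 1 1 : ℤ) : ℂ) := by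
        rw [hk']; ring
      rw [this]; exact hden
    rw [div_eq_iff hden', mul_div_assoc', div_mul_eq_mul_div, eq_div_iff hden, hk']
    push_cast
    ring
  · rw [scaleH_coe, e10, e11, hk']
    ring

theorem unitFun_smul (p : ℕ) (hp : 0 < p) (γ : SL(2, ℤ)) (hγ : γ ∈ Gamma0 p) (τ : ℍ) :
    unitFun p hp (γ • τ) = unitFun p hp τ := by
  obtain ⟨γ', hγ'⟩ := exists_smul_scaleH p hp γ hγ
  obtain ⟨h1, h2⟩ := hγ' τ
  have hd := Fermat.Agent.S28.H565.denom_ne_zero' γ τ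
  have hΔ : Δ τ ≠ 0 := ModularForm.discriminant_ne_zero τ
  rw [unitFun, unitFun, ← h1, Fermat.Agent.S28.H565.discriminant_smul,
    Fermat.Agent.S28.H565.discriminant_smul, h2]
  have hz : ((γ 1 0 : ℂ) * τ + (γ 1 1 : ℂ)) ^ (12 : ℤ) ≠ 0 := zpow_ne_zero _ hd
  field_simp

theorem mdifferentiable_unitFun (p : ℕ) (hp : 0 < p) :
    MDifferentiable 𝓘(ℂ) 𝓘(ℂ) (unitFun p hp) := by
  have h1 : MDifferentiable 𝓘(ℂ) 𝓘(ℂ) (fun τ : ℍ => Δ (scaleH p hp τ)) :=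
    Fermat.Agent.S24.H648.mdifferentiable_J_scale
      Fermat.Agent.S28.H565.mdifferentiable_discriminant p hp (scaleH p hp) (fun τ => rfl)
  have h2 : MDifferentiable 𝓘(ℂ) 𝓘(ℂ) (fun τ : ℍ => (p : ℂ) ^ 12 * Δ (scaleH p hp τ)) :=
    (mdifferentiable_const (c := ((p : ℂ) ^ 12))).mul h1
  have h3 := h2.div Fermat.Agent.S28.H565.mdifferentiable_discriminant
    (fun τ => ModularForm.discriminant_ne_zero τ)
  have he : unitFun p hp = (fun τ : ℍ => (p : ℂ) ^ 12 * Δ (scaleH p hp τ)) / Δ := by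
    funext τ
    simp [unitFun, div_eq_mul_inv]
  rw [he]
  exact h3

theorem unitFun_mem_goodRing (p : ℕ) (hp : 0 < p) : unitFun p hp ∈ goodRing p :=
  ⟨mdifferentiable_unitFun p hp, fun γ hγ τ => unitFun_smul p hp γ hγ τ,
    fun g => expGrowth_unitFun_smul p hp g⟩

/-- The `S`-conjugate of the unit at `pτ` is `Δ(τ)/Δ(pτ)`. -/
theorem unitFun_S_scaleH (p : ℕ) (hp : 0 < p) (w : ℍ) :
    unitFun p hp (ModularGroup.S • scaleH p hp w) = unitFun' p hp w := by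
  have hw : (w : ℂ) ≠ 0 := UpperHalfPlane.ne_zero w
  have hp' : (p : ℂ) ≠ 0 := by exact_mod_cast hp.ne'
  have hΔ : Δ (scaleH p hp w) ≠ 0 := ModularForm.discriminant_ne_zero _
  rw [unitFun, unitFun', scaleH_S_scaleH, Fermat.Agent.S28.H565.discriminant_smul,
    Fermat.Agent.S28.H565.discriminant_smul, scaleH_coe]
  have e10 : ((ModularGroup.S 1 0 : ℤ) : ℂ) = 1 := by simp [ModularGroup.S]
  have e11 : ((ModularGroup.S 1 1 : ℤ) : ℂ) = 0 := by simp [ModularGroup.S]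
  rw [e10, e11]
  simp only [one_mul, add_zero]
  have h1 : (w : ℂ) ^ (12 : ℤ) ≠ 0 := zpow_ne_zero _ hw
  have h2 : ((p : ℂ) * (w : ℂ)) ^ (12 : ℤ) = (p : ℂ) ^ 12 * (w : ℂ) ^ (12 : ℤ) := by
    rw [mul_zpow]; norm_cast
  rw [h2]
  field_simp

/-! ### `q`-expansions -/

/-- The formal series of the unit over `ℂ`. -/
def unitSeriesC (p : ℕ) [NeZero p] : LaurentSeries ℂ :=
  HahnSeries.C ((p : ℂ) ^ 12) * qExpand ℂ p deltaSeriesC * deltaInvSeriesC

/-- The formal series of `Δ(τ)/Δ(pτ)` over `ℂ`. -/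
def unitSeriesC' (p : ℕ) [NeZero p] : LaurentSeries ℂ :=
  deltaSeriesC * qExpand ℂ p deltaInvSeriesC

theorem hasTExp_unitFun (p : ℕ) [NeZero p] (hp : 0 < p) :
    HasTExp 1 (unitFun p hp) (unitSeriesC p) := by
  have h1 := (HasTExp.const (h := 1) ((p : ℂ) ^ 12)).mul
    (hasTExp_comp_scaleH p hp Fermat.Agent.S28.H565.hasTExp_discriminant)
  have h2 := h1.mul Fermat.Agent.S28.H565.hasTExp_discriminant_inv
  exact h2.congr fun τ => by simp [unitFun]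

theorem hasTExp_unitFun' (p : ℕ) [NeZero p] (hp : 0 < p) :
    HasTExp 1 (unitFun' p hp) (unitSeriesC' p) := by
  have h1 := Fermat.Agent.S28.H565.hasTExp_discriminant.mul
    (hasTExp_comp_scaleH p hp Fermat.Agent.S28.H565.hasTExp_discriminant_inv)
  exact h1.congr fun τ => by simp [unitFun']

end Fermat.Agent.S28.H589

end
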