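import Mathlib
import Fermat.Agent.S28.H589.UnitGood

/-!
# S28 / [A-W] (helper589): `p¹² Δ(q^p)/Δ(q)` is integral over `ℤ[j]`

Same route as `[A-Φ]` (`ModPoly.lean`): helper648's conjugate product for the good function
`u(τ) = p¹² Δ(pτ)/Δ(τ)` gives `W ∈ ℂ[Y][X]`, monic of degree `p + 1`, with
`W(u(τ), j(τ)) = 0` and `W(Δ(τ)/Δ(pτ), j(pτ)) = 0`; `descent` shows `W ∈ ℤ[Y][X]`.
-/

set_option autoImplicit false

noncomputable section

open UpperHalfPlane ModularCurve CongruenceSubgroup Function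
open scoped MatrixGroups Manifold Real Modular

namespace Fermat.Agent.S28.H589

open Fermat.Agent.S28.H565 (HasTExp deltaSeriesC deltaInvSeriesC)
open Fermat.Agent.S24.H648 (goodRing ExpGrowth)

local notation "Δ" => ModularForm.discriminant

/-! ### Formal identifications -/

theorem map_map_intCast (x : PowerSeries ℤ) :
    (x.map (Int.castRingHom ℤ)).map (Int.castRingHom ℂ) = x.map (Int.castRingHom ℂ) := by
  ext n
  simp

theorem iotaC_deltaL : iotaC (deltaL ℤ) = deltaSeriesC := by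
  rw [deltaL, map_mul, iotaC, coeffMap_single, coeffMap_ofPowerSeries, map_map_intCast,
    Fermat.Agent.S28.H565.map_dedekindEtaUnit, deltaSeriesC]
  simp

theorem iotaC_deltaInvL : iotaC (deltaInvL ℤ) = deltaInvSeriesC := by
  rw [deltaInvL, map_mul, iotaC, coeffMap_single, coeffMap_ofPowerSeries, map_map_intCast,
    deltaInvSeriesC, Fermat.Agent.S28.H565.etaInvC]
  simp

theorem iotaC_unit (p : ℕ) [NeZero p] :
    iotaC ((p : LaurentSeries ℤ) ^ 12 * unitL ℤ p) = unitSeriesC p := by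
  rw [unitL, map_mul, map_mul, map_pow, map_natCast, iotaC, coeffMap_qExpand]
  change _ * (qExpand ℂ p (iotaC (deltaL ℤ)) * iotaC (deltaInvL ℤ)) = _
  rw [iotaC_deltaL, iotaC_deltaInvL, unitSeriesC, map_pow, map_natCast]
  ring

/-- The integral series `Δ(q)/Δ(q^p)`. -/
def unitL' (p : ℕ) [NeZero p] : LaurentSeries ℤ := deltaL ℤ * qExpand ℤ p (deltaInvL ℤ)

theorem iotaC_unit' (p : ℕ) [NeZero p] : iotaC (unitL' p) = unitSeriesC' p := by
  rw [unitL', map_mul, iotaC, coeffMap_qExpand]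
  change iotaC (deltaL ℤ) * qExpand ℂ p (iotaC (deltaInvL ℤ)) = _
  rw [iotaC_deltaL, iotaC_deltaInvL, unitSeriesC']

theorem deltaSeriesC_ne_zero : deltaSeriesC ≠ 0 := by
  intro h
  have := Fermat.Agent.S28.H565.deltaSeriesC_mul_inv
  rw [h, zero_mul] at this
  exact zero_ne_one this

theorem order_deltaSeriesC : deltaSeriesC.order = 1 := by
  have hc : ∀ n : ℤ, deltaSeriesC.coeff n =
      (HahnSeries.ofPowerSeries ℤ ℂ (Fermat.Agent.S28.H565.etaProdC ^ 24)).coeff (n - 1) := by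
    intro n
    rw [deltaSeriesC, HahnSeries.coeff_single_mul, one_mul]
  have h1 : deltaSeriesC.coeff 1 ≠ 0 := by
    rw [hc]
    have : ((1 : ℤ) - 1) = ((0 : ℕ) : ℤ) := by norm_num
    rw [this, HahnSeries.ofPowerSeries_apply_coeff]
    have h2 : PowerSeries.constantCoeff (Fermat.Agent.S28.H565.etaProdC ^ 24) = 1 := by
      rw [map_pow, Fermat.Agent.S28.H565.etaProdC]
      have : PowerSeries.constantCoeff (PowerSeries.map (Int.castRingHom ℂ) ModularCurve.etaProd)
          = 1 := by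
        rw [← PowerSeries.coeff_zero_eq_constantCoeff_apply, PowerSeries.coeff_map,
          PowerSeries.coeff_zero_eq_constantCoeff_apply, ModularCurve.constantCoeff_etaProd]
        simp
      rw [this, one_pow]
    rw [PowerSeries.coeff_zero_eq_constantCoeff_apply, h2]
    exact one_ne_zero
  refine le_antisymm (HahnSeries.order_le_of_coeff_ne_zero h1) ?_
  by_contra hlt
  rw [not_le] at hlt
  refine (HahnSeries.coeff_order_eq_zero.not.mpr deltaSeriesC_ne_zero) ?_
  rw [hc]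
  exact ModularCurve.ofPowerSeries_coeff_of_neg _ (by omega)

theorem unitSeriesC'_mul (p : ℕ) [NeZero p] :
    unitSeriesC' p * qExpand ℂ p deltaSeriesC = deltaSeriesC := by
  rw [unitSeriesC', mul_assoc, ← map_mul, mul_comm deltaInvSeriesC,
    Fermat.Agent.S28.H565.deltaSeriesC_mul_inv, map_one, mul_one]

theorem unitSeriesC'_ne_zero (p : ℕ) [NeZero p] : unitSeriesC' p ≠ 0 := by
  intro h
  have := unitSeriesC'_mul p
  rw [h, zero_mul] at this
  exact deltaSeriesC_ne_zero this.symm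

/-- `ord (Δ(q)/Δ(q^p)) ≡ 1 mod p`. -/
theorem exists_order_unitSeriesC' (p : ℕ) [NeZero p] :
    ∃ m : ℤ, (unitSeriesC' p).order = 1 - p * m := by
  have hV : qExpand ℂ p deltaSeriesC ≠ 0 := by
    intro h
    have := unitSeriesC'_mul p
    rw [h, mul_zero] at this
    exact deltaSeriesC_ne_zero this.symm
  have hdvd : (p : ℤ) ∣ (qExpand ℂ p deltaSeriesC).order :=
    Fermat.Agent.S28.H145.dvd_order_qExpand (k := ℂ) p deltaSeriesC
  obtain ⟨m, hm⟩ := hdvd
  have h1 : (unitSeriesC' p * qExpand ℂ p deltaSeriesC).order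
      = (unitSeriesC' p).order + (qExpand ℂ p deltaSeriesC).order :=
    HahnSeries.order_mul (unitSeriesC'_ne_zero p) hV
  have h2 : (unitSeriesC' p * qExpand ℂ p deltaSeriesC).order = 1 := by
    rw [unitSeriesC'_mul p]
    exact order_deltaSeriesC
  refine ⟨m, ?_⟩
  rw [h2, hm] at h1
  generalize (unitSeriesC' p).order = o at h1
  omega

/-- The complex polynomial of the unit with its two formal vanishing relations. -/
theorem exists_unitPoly_complex (p : ℕ) [NeZero p] (hp : p.Prime) :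
    ∃ W : Polynomial (Polynomial ℂ), W.Monic ∧ W.natDegree = p + 1 ∧
      W.eval₂ (evC (jqModC ℂ)) (unitSeriesC p) = 0 ∧
      W.eval₂ (evC (qExpand ℂ p (jqModC ℂ))) (unitSeriesC' p) = 0 := by
  letI := fintypeQuot p
  have hu := unitFun_mem_goodRing p hp.pos
  obtain ⟨P, hPm, hPd, hP⟩ := Fermat.Agent.S24.H648.exists_charPoly_jFun hu
  have hj : HasTExp 1 Fermat.Agent.S24.H648.jFun (jqModC ℂ) := by
    rw [jFun648_eq]; exact Fermat.Agent.S28.H565.hasTExp_jFun
  have hjp : HasTExp 1 (fun τ => Fermat.Agent.S24.H648.jFun (scaleH p hp.pos τ))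
      (qExpand ℂ p (jqModC ℂ)) := hasTExp_comp_scaleH p hp.pos hj
  refine ⟨P, hPm, ?_, ?_, ?_⟩
  · rw [hPd]; exact card_quot_prime p hp
  · refine eval₂_eq_zero_of_forall P hj (hasTExp_unitFun p hp.pos) fun τ => ?_
    rw [hP]
    exact Fermat.Agent.S24.H648.charPolyAt_eval_self hu.2.1 τ
  · refine eval₂_eq_zero_of_forall P hjp (hasTExp_unitFun' p hp.pos) fun w => ?_
    show (P.map (Polynomial.evalRingHom
      (Fermat.Agent.S24.H648.jFun (scaleH p hp.pos w)))).eval (unitFun' p hp.pos w) = 0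
    rw [hP]
    have hconj : Fermat.Agent.S24.H648.conj p (unitFun p hp.pos)
        (((ModularGroup.S)⁻¹ : SL(2, ℤ)) : SL(2, ℤ) ⧸ Gamma0 p) (scaleH p hp.pos w)
        = unitFun' p hp.pos w := by
      rw [Fermat.Agent.S24.H648.conj_mk hu.2.1, inv_inv]
      exact unitFun_S_scaleH p hp.pos w
    rw [← hconj]
    exact Fermat.Agent.S24.H648.charPolyAt_eval_conj (unitFun p hp.pos) _ _

/-- **[A-W]** -/
theorem nonempty_unitPolyData (p : ℕ) [NeZero p] (hp : p.Prime) :
    Nonempty (UnitPolyData p) := by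
  obtain ⟨W, hWm, hWd, h1, h2⟩ := exists_unitPoly_complex p hp
  obtain ⟨m, hm⟩ := exists_order_unitSeriesC' p
  have hord : (unitL' p).order = 1 - p * m := by
    rw [← order_iotaC, iotaC_unit', hm]
  have hf0 : unitL' p ≠ 0 := by
    intro h
    apply unitSeriesC'_ne_zero p
    rw [← iotaC_unit', h, map_zero]
  have hcop : IsCoprime (unitL' p).order (p : ℤ) := by
    rw [hord]
    exact ⟨1, m, by ring⟩
  have hne : unitL' p ≠ qExpand ℤ p ((p : LaurentSeries ℤ) ^ 12 * unitL ℤ p) := by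
    intro h
    have h3 := congrArg iotaC h
    rw [iotaC_unit', iotaC, coeffMap_qExpand] at h3
    obtain ⟨k, hk⟩ := Fermat.Agent.S28.H145.dvd_order_qExpand (k := ℂ) p
      (coeffMap (Int.castRingHom ℂ) ((p : LaurentSeries ℤ) ^ 12 * unitL ℤ p))
    rw [← h3, hm] at hk
    have hp2 : (2 : ℤ) ≤ p := by exact_mod_cast hp.two_le
    have hdvd : (p : ℤ) ∣ 1 := ⟨k + m, by linarith⟩
    have := Int.le_of_dvd one_pos hdvd
    omega
  obtain ⟨Ψ, hΨm, -, hΨ1, -⟩ := descent p W hWm (p + 1) hWd rfl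
    ((p : LaurentSeries ℤ) ^ 12 * unitL ℤ p) (unitL' p) hf0 hcop hne
    (by rw [iotaC_unit]; exact h1)
    (by rw [iotaC_unit']; exact h2)
  exact ⟨⟨Ψ, hΨm, hΨ1⟩⟩

end Fermat.Agent.S28.H589

end
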